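import Fermat.Agent.S37.H940.Chart
import Fermat.Agent.S37.H940.Assembly

/-!
# I3 / INC-RED, abstract part (helper159): lifting uniformisers along a place reduction map

Setting: helper940's reduction context `C : Ctx K F k Fk` (`V ⊆ F` the Gauss ring, `ρ : V → F_k`),
constants algebraically closed, and a map `r : Pl(F) → Pl(F_k)` with clause (ii)
(`r_*(div u) = div (ρ u)` for `u ∈ V`, `ρ u ≠ 0`): `IsRedII C r`.

* `ord_red_ge`   : if `u` is regular on the fibre `r⁻¹(Q)` then `0 ≤ ord_Q (ρ u)` and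
                   `ord_P u ≤ ord_Q (ρ u)` for every `P ↦ Q`;
* `value_mem_of_regular`, `red_value_of_regular` : values on the fibre lie in `A` and reduce;
* `exists_den`   : `O_Q` is a localisation of the chart ring;
* `exists_lift_uniformizer` : a uniformiser `s` at `Q` (in the chart of `t₀`) has a lift `t ∈ V`,
                   regular on `r⁻¹(Q) ≠ ∅`, such that `t - t(P)` is a uniformiser at every
                   `P ↦ Q`.
-/

set_option autoImplicit false
set_option linter.unusedVariables false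
set_option linter.unusedSectionVars false

noncomputable section

namespace Fermat.Agent.Ribet.H159

open AlgebraicCurve IntermediateField Polynomial
open Fermat.Agent.S37.H940

variable {K F k Fk : Type*} [Field K] [Field F] [Algebra K F] [Field k] [Field Fk]
  [Algebra k Fk]

/-- clause (ii) of a place reduction map, for a reduction context -/
def IsRedII (C : Ctx K F k Fk) (r : Place K F → Place k Fk) : Prop :=
  ∀ u : C.V, C.ρ u ≠ 0 → ∀ D : Divisor K F, (∀ P, D P = P.ord (u : F)) →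
    ∀ Q, Finsupp.mapDomain r D Q = Q.ord (C.ρ u)

section KL

variable [IsAlgClosed K] (C : Ctx K F k Fk) (r : Place K F → Place k Fk) (hii : IsRedII C r)
  {τ : F} (hτ : Transcendental K τ) [FiniteDimensional K⟮τ⟯ F]

include hii hτ

/-- the fibre sum of `u` at `Q`, with `u` regular on the fibre -/
theorem ord_red_ge (u : C.V) (hu : C.ρ u ≠ 0) (Q : Place k Fk)
    (h : ∀ P, r P = Q → 0 ≤ P.ord (u : F)) :
    0 ≤ Q.ord (C.ρ u) ∧ ∀ P₀, r P₀ = Q → P₀.ord (u : F) ≤ Q.ord (C.ρ u) := by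
  classical
  let D : Divisor K F := Finsupp.ofSupportFinite (fun P => P.ord (u : F))
    (Line.finite_ord_ne_zero hτ (u : F))
  have hD : ∀ P, D P = P.ord (u : F) := fun P => rfl
  have h1 := hii u hu D hD Q
  rw [mapDomain_apply_eq_sum] at h1
  have hnn : ∀ P ∈ D.support, 0 ≤ (if r P = Q then D P else 0) := by
    intro P _
    split_ifs with hP
    · rw [hD]; exact h P hP
    · exact le_rfl
  refine ⟨by rw [← h1]; exact Finset.sum_nonneg hnn, fun P₀ hP₀ => ?_⟩
  by_cases hmem : P₀ ∈ D.support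
  · have h2 := Finset.single_le_sum hnn hmem
    rw [if_pos hP₀, h1, hD] at h2
    exact h2
  · have h3 : D P₀ = 0 := Finsupp.notMem_support_iff.mp hmem
    rw [hD] at h3
    rw [h3, ← h1]
    exact Finset.sum_nonneg hnn

/-- the fibre over `Q` is not empty as soon as some `ρ u` has a zero or pole at `Q` -/
theorem exists_red_eq (u : C.V) (hu : C.ρ u ≠ 0) (Q : Place k Fk) (hQ : Q.ord (C.ρ u) ≠ 0) :
    ∃ P, r P = Q := by
  classical
  by_contra hne
  push Not at hne
  let D : Divisor K F := Finsupp.ofSupportFinite (fun P => P.ord (u : F))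
    (Line.finite_ord_ne_zero hτ (u : F))
  have hD : ∀ P, D P = P.ord (u : F) := fun P => rfl
  have h1 := hii u hu D hD Q
  rw [mapDomain_apply_eq_sum] at h1
  apply hQ
  rw [← h1]
  exact Finset.sum_eq_zero fun P _ => if_neg (hne P)

/-- values on the fibre over `Q` of a function of `V` regular on the fibre lie in `A` -/
theorem value_mem_of_regular (b : C.V) (Q : Place k Fk)
    (hreg : ∀ P, r P = Q → 0 ≤ P.ord (b : F)) (P₀ : Place K F) (hP₀ : r P₀ = Q) (β : K)
    (hβ : InMax P₀ ((b : F) - algebraMap K F β)) : β ∈ C.A := by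
  by_contra hβA
  obtain ⟨a, ha, hπ⟩ := C.exists_inv_of_not_mem hβA
  have hβ0 : β ≠ 0 := by
    rintro rfl
    exact hβA (zero_mem _)
  -- `y = 1 - β⁻¹ b`
  let y : C.V := 1 - C.const a * b
  have hρy : C.ρ y = 1 := by
    show C.ρ (1 - C.const a * b) = 1
    rw [map_sub, map_one, map_mul, C.ρ_const, hπ, map_zero, zero_mul, sub_zero]
  have hρy0 : C.ρ y ≠ 0 := by rw [hρy]; exact one_ne_zero
  have hy0 : (y : F) ≠ 0 := C.ne_zero_of_ρ_ne_zero hρy0
  have hycoe : (y : F) = 1 - algebraMap K F (a : K) * (b : F) := rfl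
  have hyreg : ∀ P, r P = Q → 0 ≤ P.ord (y : F) := by
    intro P hP
    rw [hycoe]
    refine ord_nonneg_sub ?_ (ord_nonneg_mul (ord_nonneg_const P _) (hreg P hP))
    rw [P.ord_one]
  have hyin : InMax P₀ (y : F) := by
    have e : (y : F) = algebraMap K F (-(a : K)) * ((b : F) - algebraMap K F β) := by
      rw [hycoe, ha, map_neg, map_inv₀]
      have hβF : algebraMap K F β ≠ 0 := by simpa using hβ0
      field_simp
      ring
    rw [e]
    exact hβ.const_mul _
  have hpos : 0 < P₀.ord (y : F) := hyin.ord_pos hy0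
  have hle := (ord_red_ge C r hii hτ y hρy0 Q hyreg).2 P₀ hP₀
  rw [hρy, Q.ord_one] at hle
  omega

/-- values on the fibre reduce to values at `Q` -/
theorem red_value_of_regular (b : C.V) (Q : Place k Fk)
    (hreg : ∀ P, r P = Q → 0 ≤ P.ord (b : F)) (P₀ : Place K F) (hP₀ : r P₀ = Q) (a : C.A)
    (ha : InMax P₀ ((b : F) - algebraMap K F (a : K))) :
    InMax Q (C.ρ b - algebraMap k Fk (C.π a)) := by
  let y : C.V := b - C.const a
  have hρy : C.ρ y = C.ρ b - algebraMap k Fk (C.π a) := by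
    show C.ρ (b - C.const a) = _
    rw [map_sub, C.ρ_const]
  rw [← hρy]
  by_cases h0 : C.ρ y = 0
  · rw [h0]; exact inMax_zero Q
  have hy0 : (y : F) ≠ 0 := C.ne_zero_of_ρ_ne_zero h0
  have hycoe : (y : F) = (b : F) - algebraMap K F (a : K) := rfl
  have hyreg : ∀ P, r P = Q → 0 ≤ P.ord (y : F) := by
    intro P hP
    rw [hycoe]
    exact ord_nonneg_sub (hreg P hP) (ord_nonneg_const P _)
  have hpos : 0 < P₀.ord (y : F) := by
    have : InMax P₀ (y : F) := by rw [hycoe]; exact ha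
    exact this.ord_pos hy0
  have hle := (ord_red_ge C r hii hτ y h0 Q hyreg).2 P₀ hP₀
  exact inMax_of_ord_pos (lt_of_lt_of_le hpos hle)

end KL

section Den

variable [IsAlgClosed k] {s₀ : Fk} (hs₀ : Transcendental k s₀) [FiniteDimensional k⟮s₀⟯ Fk]

include hs₀

/-- **`O_Q` is a localisation of the chart ring**: a function regular at `Q` (a point of the
chart of `s₀`) is a quotient `c₁ / c₂` of elements integral over `k[s₀]`, `c₂` a unit at `Q`. -/
theorem exists_den (Q : Place k Fk) (hQ : 0 ≤ Q.ord s₀) (s : Fk) (hs : 0 ≤ Q.ord s) :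
    ∃ c₁ ∈ integralClosure (Algebra.adjoin k {s₀}) Fk,
      ∃ c₂ ∈ integralClosure (Algebra.adjoin k {s₀}) Fk,
        c₂ ≠ 0 ∧ Q.ord c₂ = 0 ∧ s * c₂ = c₁ := by
  classical
  obtain ⟨c, hc⟩ := Line.exists_value hs₀ Q hQ
  set S : Finset (Place k Fk) :=
    (Line.finite_fibre hs₀ c).toFinset ∪ (Line.finite_ord_ne_zero hs₀ s).toFinset ∪ {Q} with hS
  have hQS : Q ∈ S := by
    rw [hS]
    exact Finset.mem_union_right _ (Finset.mem_singleton_self Q)
  obtain ⟨z, hz⟩ := Fermat.Agent.Lib.RR.H623.weak_approximation S (fun _ => (0 : Fk))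
    (fun Q' => if Q' = Q then 0 else max 0 (-(Q'.ord s)))
  have hz0 : z ≠ 0 := by
    have := (hz Q hQS).1
    rwa [sub_zero] at this
  have hzord : ∀ Q' ∈ S, Q'.ord z = if Q' = Q then 0 else max 0 (-(Q'.ord s)) := fun Q' hQ' => by
    have := (hz Q' hQ').2
    rwa [sub_zero] at this
  have hznn : ∀ Q' ∈ S, 0 ≤ Q'.ord z := by
    intro Q' hQ'
    rw [hzord Q' hQ']
    split_ifs
    · exact le_rfl
    · exact le_max_left _ _
  have hreg : ∀ P : Place k Fk, InMax P (s₀ - algebraMap k Fk c) → 0 ≤ P.ord z := by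
    intro P hP
    refine hznn P ?_
    rw [hS]
    refine Finset.mem_union_left _ (Finset.mem_union_left _ ?_)
    rw [Set.Finite.mem_toFinset]
    exact hP
  obtain ⟨p, hp, hpreg⟩ := Line.exists_clear hs₀ c z hreg
  obtain ⟨hp0, hpQ⟩ := Line.aeval_unit_on_fibre hs₀ hp hc
  have hc₂0 : z * aeval s₀ p ≠ 0 := mul_ne_zero hz0 hp0
  refine ⟨s * (z * aeval s₀ p), ?_, z * aeval s₀ p,
    Line.mem_integralClosure_of_regular hs₀ _ hpreg, hc₂0, ?_, rfl⟩
  · refine Line.mem_integralClosure_of_regular hs₀ _ fun P hP => ?_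
    rcases eq_or_ne s 0 with rfl | hs0
    · rw [zero_mul, P.ord_zero]
    rw [P.ord_mul hs0 hc₂0]
    have h1 := hpreg P hP
    by_cases hneg : 0 ≤ P.ord s
    · omega
    · have hPS : P ∈ S := by
        rw [hS]
        refine Finset.mem_union_left _ (Finset.mem_union_right _ ?_)
        rw [Set.Finite.mem_toFinset]
        show P.ord s ≠ 0
        omega
      have hPQ : P ≠ Q := by
        rintro rfl
        exact hneg hs
      have h2 := hzord P hPS
      rw [if_neg hPQ] at h2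
      have h3 : 0 ≤ P.ord (aeval s₀ p) := Line.regular_aeval P hP p
      rw [P.ord_mul hz0 hp0, h2]
      have h4 := le_max_right 0 (-(P.ord s))
      omega
  · rw [Q.ord_mul hz0 hp0, hpQ, hzord Q hQS, if_pos rfl, add_zero]

end Den

section Lift

variable [IsAlgClosed K] [IsAlgClosed k] (C : Ctx K F k Fk) (r : Place K F → Place k Fk)
  (hii : IsRedII C r) (t₀ : C.V) (ht₀ : Transcendental k (C.ρ t₀))
  [FiniteDimensional K⟮(t₀ : F)⟯ F] [FiniteDimensional k⟮C.ρ t₀⟯ Fk]
  (hLIFT : ∀ τ ∈ integralClosure (Algebra.adjoin k {C.ρ t₀}) Fk,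
    ∃ b : C.V, C.ρ b = τ ∧ ∀ P : Place K F, 0 ≤ P.ord (t₀ : F) → 0 ≤ P.ord (b : F))

include hii ht₀ hLIFT

/-- **Lifting uniformisers.**  Let `Q` be a point of the chart of `t̄₀` such that `t₀` is regular
on the fibre `r⁻¹(Q)`, and `s` a uniformiser at `Q`.  Then `s = ρ t` with `t ∈ V` regular on the
fibre, the fibre is not empty, and `t - t(P)` is a uniformiser at every `P ↦ Q`. -/
theorem exists_lift_uniformizer (Q : Place k Fk) (hQ : 0 ≤ Q.ord (C.ρ t₀))
    (hreg : ∀ P, r P = Q → 0 ≤ P.ord (t₀ : F)) (s : Fk) (hs : Q.ord s = 1) :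
    ∃ t : C.V, C.ρ t = s ∧ (∃ P, r P = Q) ∧ (∀ P, r P = Q → 0 ≤ P.ord (t : F)) ∧
      ∀ P, r P = Q → ∃ a : K, P.ord ((t : F) - algebraMap K F a) = 1 := by
  have htK : Transcendental K (t₀ : F) := C.transcendental_of_ρ ht₀
  have hs0 : s ≠ 0 := by
    rintro rfl
    rw [Q.ord_zero] at hs
    exact zero_ne_one hs
  obtain ⟨c₁, hc₁, c₂, hc₂, hc₂0, hc₂Q, hsc⟩ := exists_den ht₀ Q hQ s (by rw [hs]; norm_num)
  obtain ⟨b₁, hb₁, hb₁reg⟩ := hLIFT c₁ hc₁
  obtain ⟨b₂, hb₂, hb₂reg⟩ := hLIFT c₂ hc₂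
  have hρb₂ : C.ρ b₂ ≠ 0 := by rw [hb₂]; exact hc₂0
  have hb₂0 : (b₂ : F) ≠ 0 := C.ne_zero_of_ρ_ne_zero hρb₂
  let t : C.V := b₁ * C.inv b₂ hρb₂
  have htcoe : (t : F) = (b₁ : F) * ((b₂ : F))⁻¹ := rfl
  have hρt : C.ρ t = s := by
    show C.ρ (b₁ * C.inv b₂ hρb₂) = s
    rw [map_mul, C.ρ_inv, hb₁, hb₂, ← hsc, mul_assoc, mul_inv_cancel₀ hc₂0, mul_one]
  have hρt0 : C.ρ t ≠ 0 := by rw [hρt]; exact hs0
  have hb₁fib : ∀ P, r P = Q → 0 ≤ P.ord (b₁ : F) := fun P hP => hb₁reg P (hreg P hP)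
  have hb₂fib : ∀ P, r P = Q → 0 ≤ P.ord (b₂ : F) := fun P hP => hb₂reg P (hreg P hP)
  -- `b₂` is a unit on the fibre
  have hb₂unit : ∀ P, r P = Q → P.ord (b₂ : F) = 0 := by
    intro P hP
    obtain ⟨β, hβ⟩ := Line.exists_value htK P (hb₂fib P hP)
    have hβA : β ∈ C.A := value_mem_of_regular C r hii htK b₂ Q hb₂fib P hP β hβ
    have hval := red_value_of_regular C r hii htK b₂ Q hb₂fib P hP ⟨β, hβA⟩ hβ
    rw [hb₂] at hval
    have hπ : C.π ⟨β, hβA⟩ ≠ 0 := by
      intro h0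
      rw [h0, map_zero, sub_zero] at hval
      exact not_inMax_of_ord_eq_zero hc₂0 hc₂Q hval
    have hβ0 : β ≠ 0 := by
      rintro rfl
      apply hπ
      have : (⟨0, hβA⟩ : C.A) = 0 := rfl
      rw [this, map_zero]
    exact ord_eq_zero_of_inMax_sub hβ hβ0
  have htfib : ∀ P, r P = Q → 0 ≤ P.ord (t : F) := by
    intro P hP
    rw [htcoe]
    refine ord_nonneg_mul (hb₁fib P hP) ?_
    rw [P.ord_inv, hb₂unit P hP, neg_zero]
  refine ⟨t, hρt, ?_, htfib, fun P₀ hP₀ => ?_⟩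
  · exact exists_red_eq C r hii htK t hρt0 Q (by rw [hρt, hs]; norm_num)
  · obtain ⟨a, ha⟩ := Line.exists_value htK P₀ (htfib P₀ hP₀)
    have haA : a ∈ C.A := value_mem_of_regular C r hii htK t Q htfib P₀ hP₀ a ha
    have hval := red_value_of_regular C r hii htK t Q htfib P₀ hP₀ ⟨a, haA⟩ ha
    rw [hρt] at hval
    have hsin : InMax Q s := inMax_of_ord_pos (by rw [hs]; norm_num)
    have hπ : C.π ⟨a, haA⟩ = 0 := by
      have h1 := hsin.sub hval
      rw [sub_sub_cancel, inMax_algebraMap_iff] at h1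
      exact h1
    let u : C.V := t - C.const ⟨a, haA⟩
    have hucoe : (u : F) = (t : F) - algebraMap K F a := rfl
    have hρu : C.ρ u = s := by
      show C.ρ (t - C.const ⟨a, haA⟩) = s
      rw [map_sub, C.ρ_const, hπ, map_zero, sub_zero, hρt]
    have hρu0 : C.ρ u ≠ 0 := by rw [hρu]; exact hs0
    have hu0 : (u : F) ≠ 0 := C.ne_zero_of_ρ_ne_zero hρu0
    have hureg : ∀ P, r P = Q → 0 ≤ P.ord (u : F) := by
      intro P hP
      rw [hucoe]
      exact ord_nonneg_sub (htfib P hP) (ord_nonneg_const P _)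
    have hle := (ord_red_ge C r hii htK u hρu0 Q hureg).2 P₀ hP₀
    rw [hρu, hs] at hle
    have hpos : 0 < P₀.ord (u : F) := by
      have : InMax P₀ (u : F) := by rw [hucoe]; exact ha
      exact this.ord_pos hu0
    refine ⟨a, ?_⟩
    rw [← hucoe]
    omega

end Lift

end Fermat.Agent.Ribet.H159
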