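import Mathlib
import Fermat.Prelude.Def_ModularCurve_LaurentCoeff

/-!
# `θ = q d/dq` on Laurent series (helper159, RIBET / I3 INC-RED)

`thetaL f` has coefficients `n · f_n`.  It is an additive derivation of `R((q))`, kills the
constants and the `p`-th powers (characteristic `p`), and commutes with coefficient maps.
-/

set_option autoImplicit false

noncomputable section

namespace Fermat.Agent.Ribet.H159

open HahnSeries ModularCurve

variable {R S : Type*} [CommRing R] [CommRing S]

/-- `θ = q d/dq` on Laurent series. -/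
def thetaL (f : LaurentSeries R) : LaurentSeries R where
  coeff n := (n : R) * f.coeff n
  isPWO_support' := f.isPWO_support.mono fun n hn => by
    rw [Function.mem_support] at hn
    rw [HahnSeries.mem_support]
    intro h0
    exact hn (by rw [h0, mul_zero])

@[simp] theorem thetaL_coeff (f : LaurentSeries R) (n : ℤ) :
    (thetaL f).coeff n = (n : R) * f.coeff n := rfl

theorem thetaL_support_subset (f : LaurentSeries R) : (thetaL f).support ⊆ f.support := by
  intro n hn
  rw [HahnSeries.mem_support] at hn ⊢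
  intro h0
  exact hn (by rw [thetaL_coeff, h0, mul_zero])

@[simp] theorem thetaL_zero : thetaL (0 : LaurentSeries R) = 0 := by
  ext n; simp

theorem thetaL_add (f g : LaurentSeries R) : thetaL (f + g) = thetaL f + thetaL g := by
  ext n; simp [mul_add]

theorem thetaL_neg (f : LaurentSeries R) : thetaL (-f) = -thetaL f := by
  ext n; simp

theorem thetaL_sub (f g : LaurentSeries R) : thetaL (f - g) = thetaL f - thetaL g := by
  ext n; simp [mul_sub]

theorem thetaL_single_zero (c : R) : thetaL (HahnSeries.single (0 : ℤ) c) = 0 := by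
  ext n
  rcases eq_or_ne n 0 with rfl | hn
  · simp
  · simp [HahnSeries.coeff_single_of_ne hn]

theorem thetaL_C (c : R) : thetaL (HahnSeries.C c : LaurentSeries R) = 0 :=
  thetaL_single_zero c

@[simp] theorem thetaL_one : thetaL (1 : LaurentSeries R) = 0 := thetaL_single_zero 1

/-- **Leibniz rule.** -/
theorem thetaL_mul (f g : LaurentSeries R) :
    thetaL (f * g) = thetaL f * g + f * thetaL g := by
  ext n
  rw [thetaL_coeff, HahnSeries.coeff_add,
    HahnSeries.coeff_mul_left' f.isPWO_support (thetaL_support_subset f),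
    HahnSeries.coeff_mul_right' g.isPWO_support (thetaL_support_subset g),
    HahnSeries.coeff_mul, Finset.mul_sum, ← Finset.sum_add_distrib]
  refine Finset.sum_congr rfl fun ij hij => ?_
  rw [Finset.mem_antidiagonal] at hij
  obtain ⟨-, -, hsum⟩ := hij
  rw [thetaL_coeff, thetaL_coeff, ← hsum]
  push_cast
  ring

theorem thetaL_pow (f : LaurentSeries R) (n : ℕ) :
    thetaL (f ^ (n + 1)) = ((n + 1 : ℕ) : LaurentSeries R) * f ^ n * thetaL f := by
  induction n with
  | zero => simp
  | succ n ih =>
    rw [pow_succ, thetaL_mul, ih]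
    push_cast
    ring

/-- `θ` kills `p`-th powers in characteristic `p`. -/
theorem thetaL_pow_char (p : ℕ) [hp : Fact p.Prime] [CharP R p] (f : LaurentSeries R) :
    thetaL (f ^ p) = 0 := by
  obtain ⟨m, hm⟩ : ∃ m, p = m + 1 := ⟨p - 1, (Nat.succ_pred_eq_of_pos hp.out.pos).symm⟩
  have hchar : ((p : ℕ) : LaurentSeries R) = 0 := by
    have h1 : ((p : ℕ) : LaurentSeries R) = HahnSeries.C ((p : ℕ) : R) := by
      rw [map_natCast]
    rw [h1, CharP.cast_eq_zero, map_zero]
  rw [hm, thetaL_pow, ← hm, hchar, zero_mul, zero_mul]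

/-- `θ` commutes with coefficient maps. -/
theorem coeffMap_thetaL (φ : R →+* S) (f : LaurentSeries R) :
    coeffMap φ (thetaL f) = thetaL (coeffMap φ f) := by
  ext n
  simp

/-- quotient rule, fraction-free: `t z₂ = z₁ ⟹ θ(t) z₂² = θ(z₁) z₂ - z₁ θ(z₂)`. -/
theorem thetaL_quot {t z₁ z₂ : LaurentSeries R} (h : t * z₂ = z₁) :
    thetaL t * z₂ ^ 2 = thetaL z₁ * z₂ - z₁ * thetaL z₂ := by
  have h1 : thetaL z₁ = thetaL t * z₂ + t * thetaL z₂ := by rw [← h, thetaL_mul]
  rw [h1, ← h]
  ring

end Fermat.Agent.Ribet.H159
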