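import Fermat.Agent.S37.Red.H940.Main
import Fermat.Agent.S37.H940.QSeries
import Fermat.Agent.Ribet.H159.ThetaL
import Fermat.Agent.Ribet.H159.IncRedAbs

/-!
# I3 / INC-RED (helper159): reduction of holomorphic `q`-series, for a linked reduction datum

Setting: `F ⊆ L((q))`, `F_k ⊆ k((q))` function fields, `G : Red.Datum A π F F_k` a reduction datum
which is *linked* to the `q`-expansions (`IsLinked`: integral series of `F` with nonzero
reduction in `F_k` lie in `O`, and `ρ` is the coefficientwise reduction), with the value-group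
hypothesis `H940.ValueGroupHyp` (every `f ≠ 0` is `c · y₁ / y₂`, `yᵢ` integral with nonzero
reduction).

* `serFrac`     : if `Y₁ = U · Y₂` with `U ∈ F` and `Y₁, Y₂ ∈ A((q))` ARBITRARY integral series,
                  `Ȳ₂ ≠ 0`, then `U ∈ O` and `ρ(U) · Ȳ₂ = Ȳ₁`;
* `exists_frac` : every `t ∈ O` is `Z₁ / Z₂` with `ρ t = Z̄₁ / Z̄₂`;
* `holoOn_red_at` : **the reduction of a holomorphic integral series is holomorphic at `Q`**
                  (`Q` in the chart of the coordinate `t₀`, `t₀` regular on `r⁻¹(Q)`).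
-/

set_option autoImplicit false
set_option linter.unusedVariables false
set_option linter.unusedSectionVars false
set_option linter.style.haveILetI false

noncomputable section

namespace Fermat.Agent.Ribet.H159

open AlgebraicCurve IntermediateField HahnSeries ModularCurve
open Fermat.Agent.S37 Fermat.Agent.S37.Red Fermat.Agent.S37.H940

universe u

/-- `g` is holomorphic on the function field `E ⊆ K((q))`: at every place `P` and for every
uniformiser `t` at `P`, `g = u · θ t` with `u ∈ E` regular at `P`. -/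
def HoloOn {K : Type*} [Field K] (E : IntermediateField K (LaurentSeries K))
    (g : LaurentSeries K) : Prop :=
  ∀ (P : Place K E) (t : E), P.ord t = 1 →
    ∃ u : E, u ∈ P.toValuationSubring ∧ g = (u : LaurentSeries K) * thetaL (t : LaurentSeries K)

/-- `g` is holomorphic at the place `Q`. -/
def HoloAt {K : Type*} [Field K] (E : IntermediateField K (LaurentSeries K))
    (g : LaurentSeries K) (Q : Place K E) : Prop :=
  ∀ t : E, Q.ord t = 1 →
    ∃ u : E, u ∈ Q.toValuationSubring ∧ g = (u : LaurentSeries K) * thetaL (t : LaurentSeries K)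

variable {L : Type u} [Field L] {A : ValuationSubring L} {k : Type u} [Field k] {π : A →+* k}
  {F : IntermediateField L (LaurentSeries L)} {Fk : IntermediateField k (LaurentSeries k)}
  (G : Red.Datum A π F Fk)

/-- the datum is linked to the `q`-expansions (`Red.H759.Link`, for general fields) -/
def IsLinked : Prop :=
  ∀ (y : LaurentSeries A) (hy : coeffMap A.subtype y ∈ F) (hyk : coeffMap π y ∈ Fk),
    coeffMap π y ≠ 0 →
    ∃ h : (⟨coeffMap A.subtype y, hy⟩ : F) ∈ G.O,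
      G.ρ ⟨⟨coeffMap A.subtype y, hy⟩, h⟩ = ⟨coeffMap π y, hyk⟩

variable {G}

/-- link, for an element of `F` given with an integral series -/
theorem IsLinked.mem (hlink : IsLinked G) (f : F) (Z : LaurentSeries A)
    (hZ : coeffMap A.subtype Z = (f : LaurentSeries L)) (hZk : coeffMap π Z ∈ Fk)
    (hne : coeffMap π Z ≠ 0) :
    ∃ h : f ∈ G.O, ((G.ρ ⟨f, h⟩ : Fk) : LaurentSeries k) = coeffMap π Z := by
  obtain ⟨fv, fp⟩ := f
  change coeffMap A.subtype Z = fv at hZ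
  subst hZ
  obtain ⟨h, hρ⟩ := hlink Z fp hZk hne
  exact ⟨h, congrArg Subtype.val hρ⟩

theorem single_zero_mul_single_zero {R : Type*} [CommRing R] (a b : R) :
    (HahnSeries.single (0 : ℤ) a : LaurentSeries R) * HahnSeries.single 0 b
      = HahnSeries.single 0 (a * b) := by
  rw [HahnSeries.single_mul_single, add_zero]

theorem single_zero_one {R : Type*} [CommRing R] :
    (HahnSeries.single (0 : ℤ) (1 : R) : LaurentSeries R) = 1 := rfl

theorem coe_algebraMap_eq_single (c : L) :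
    ((algebraMap L F c : F) : LaurentSeries L) = HahnSeries.single 0 c := by
  rw [← algebraMap_laurentSeries_eq_single]
  rfl

theorem coe_algebraMap_eq_single_k (c : k) :
    ((algebraMap k Fk c : Fk) : LaurentSeries k) = HahnSeries.single 0 c := by
  rw [← algebraMap_laurentSeries_eq_single]
  rfl

/-- the value-group hypothesis, in terms of series and of the datum -/
theorem exists_vg (hlink : IsLinked G) (hVG : ValueGroupHyp A π F Fk) (U : F) (hU : U ≠ 0) :
    ∃ (c : L) (Z₁ Z₂ : LaurentSeries A) (f₁ f₂ : F) (h₁ : f₁ ∈ G.O) (h₂ : f₂ ∈ G.O),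
      c ≠ 0 ∧ coeffMap π Z₁ ≠ 0 ∧ coeffMap π Z₂ ≠ 0 ∧
      (f₁ : LaurentSeries L) = coeffMap A.subtype Z₁ ∧
      (f₂ : LaurentSeries L) = coeffMap A.subtype Z₂ ∧
      ((G.ρ ⟨f₁, h₁⟩ : Fk) : LaurentSeries k) = coeffMap π Z₁ ∧
      ((G.ρ ⟨f₂, h₂⟩ : Fk) : LaurentSeries k) = coeffMap π Z₂ ∧
      U * f₂ = algebraMap L F c * f₁ := by
  obtain ⟨c, hc0, y₁, y₂, hy₁, hy₂, hfy⟩ := hVG U hU
  have hZ₁ := coeffMap_series A π F Fk y₁
  have hZ₂ := coeffMap_series A π F Fk y₂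
  have hZ₁k := coeffMap_series_mem A π F Fk y₁
  have hZ₂k := coeffMap_series_mem A π F Fk y₂
  have hne₁ : coeffMap π (series A π F Fk y₁) ≠ 0 := by
    intro h0
    apply hy₁
    apply Subtype.ext
    exact h0
  have hne₂ : coeffMap π (series A π F Fk y₂) ≠ 0 := by
    intro h0
    apply hy₂
    apply Subtype.ext
    exact h0
  obtain ⟨h₁, hρ₁⟩ := hlink.mem (y₁ : F) _ hZ₁ hZ₁k hne₁
  obtain ⟨h₂, hρ₂⟩ := hlink.mem (y₂ : F) _ hZ₂ hZ₂k hne₂
  exact ⟨c, _, _, (y₁ : F), (y₂ : F), h₁, h₂, hc0, hne₁, hne₂, hZ₁.symm, hZ₂.symm, hρ₁, hρ₂, hfy⟩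

/-- an element of `L` outside `A` has its inverse in the maximal ideal -/
theorem exists_inv_of_not_mem_datum (G : Red.Datum A π F Fk) {c : L} (hc : c ∉ A) :
    ∃ a : A, (a : L) = c⁻¹ ∧ π a = 0 :=
  (Red.H940.ctx G).exists_inv_of_not_mem hc

/-- constants of `O` lie in `A` -/
theorem const_mem_of_mem (c : L) (hc : algebraMap L F c ∈ G.O) : c ∈ A := by
  by_contra hcA
  obtain ⟨a, ha, hπ⟩ := exists_inv_of_not_mem_datum G hcA
  have hc0 : c ≠ 0 := by
    rintro rfl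
    exact hcA (zero_mem _)
  have e : (⟨algebraMap L F (a : L), G.const_mem a⟩ : G.O) * ⟨algebraMap L F c, hc⟩ = 1 := by
    apply Subtype.ext
    show algebraMap L F (a : L) * algebraMap L F c = 1
    rw [ha, ← map_mul, inv_mul_cancel₀ hc0, map_one]
  have h1 := congrArg G.ρ e
  rw [map_mul, G.ρ_const a, map_one] at h1
  have hπ' : π a = 0 := hπ
  rw [hπ', map_zero, zero_mul] at h1
  exact zero_ne_one h1

/-- **SerFrac.**  `Y₁ = U · Y₂`, `U ∈ F`, `Y₁, Y₂` integral series, `Ȳ₂ ≠ 0`: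
then `U ∈ O` and `ρ(U) · Ȳ₂ = Ȳ₁`. -/
theorem serFrac (hlink : IsLinked G) (hVG : ValueGroupHyp A π F Fk) (U : F)
    (Y₁ Y₂ : LaurentSeries A) (hY₂ : coeffMap π Y₂ ≠ 0)
    (h : coeffMap A.subtype Y₁ = (U : LaurentSeries L) * coeffMap A.subtype Y₂) :
    ∃ hU : U ∈ G.O,
      ((G.ρ ⟨U, hU⟩ : Fk) : LaurentSeries k) * coeffMap π Y₂ = coeffMap π Y₁ := by
  rcases eq_or_ne U 0 with rfl | hU0
  · have hY₁ : Y₁ = 0 := by
      apply coeffMap_subtype_injective A
      rw [h, map_zero]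
      simp
    refine ⟨zero_mem _, ?_⟩
    have h0 : G.ρ ⟨0, zero_mem _⟩ = 0 := map_zero G.ρ
    rw [h0, hY₁, map_zero]
    simp
  obtain ⟨c, Z₁, Z₂, f₁, f₂, h₁, h₂, hc0, hne₁, hne₂, hf₁, hf₂, hρ₁, hρ₂, hfy⟩ :=
    exists_vg hlink hVG U hU0
  -- the identity of series over `L`
  have hser : (U : LaurentSeries L) * coeffMap A.subtype Z₂ =
      HahnSeries.single 0 c * coeffMap A.subtype Z₁ := by
    rw [← hf₁, ← hf₂, ← coe_algebraMap_eq_single (F := F)]
    exact congrArg (fun f : F => (f : LaurentSeries L)) hfy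
  have hprod : coeffMap A.subtype Y₁ * coeffMap A.subtype Z₂ =
      HahnSeries.single 0 c * (coeffMap A.subtype Z₁ * coeffMap A.subtype Y₂) := by
    rw [h, mul_right_comm, hser]
    ring
  -- `c ∈ A`
  have hcA : c ∈ A := by
    by_contra hcA
    obtain ⟨a, ha, hπ⟩ := exists_inv_of_not_mem_datum G hcA
    have hπ' : π a = 0 := hπ
    have e : Z₁ * Y₂ = HahnSeries.single 0 a * (Y₁ * Z₂) := by
      apply coeffMap_subtype_injective A
      rw [map_mul, map_mul, map_mul, coeffMap_single, hprod, ← mul_assoc,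
        single_zero_mul_single_zero]
      have : A.subtype a * c = 1 := by
        show (a : L) * c = 1
        rw [ha, inv_mul_cancel₀ hc0]
      rw [this, single_zero_one, one_mul]
    have e' := congrArg (coeffMap π) e
    rw [map_mul, map_mul, coeffMap_single, hπ', HahnSeries.single_eq_zero, zero_mul] at e'
    exact mul_ne_zero hne₁ hY₂ e'
  -- the identity of series over `A`, and its reduction
  have e : Y₁ * Z₂ = HahnSeries.single 0 (⟨c, hcA⟩ : A) * (Z₁ * Y₂) := by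
    apply coeffMap_subtype_injective A
    rw [map_mul, map_mul, map_mul, coeffMap_single, hprod]
    rfl
  have e' := congrArg (coeffMap π) e
  rw [map_mul, map_mul, map_mul, coeffMap_single] at e'
  -- `U ∈ O`
  have hρ₂0 : G.ρ ⟨f₂, h₂⟩ ≠ 0 := by
    intro h0
    apply hne₂
    rw [← hρ₂, h0]
    rfl
  have hf₂0 : f₂ ≠ 0 := (Red.H940.ctx G).ne_zero_of_ρ_ne_zero (u := ⟨f₂, h₂⟩) hρ₂0
  have hf₂inv : f₂⁻¹ ∈ G.O := (Red.H940.ctx G).inv_mem ⟨f₂, h₂⟩ hρ₂0
  have hUeq : U = algebraMap L F c * f₁ * f₂⁻¹ := by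
    rw [← hfy, mul_assoc, mul_inv_cancel₀ hf₂0, mul_one]
  have hUO : U ∈ G.O := by
    rw [hUeq]
    exact mul_mem (mul_mem (G.const_mem ⟨c, hcA⟩) h₁) hf₂inv
  refine ⟨hUO, ?_⟩
  have hmul : (⟨U, hUO⟩ : G.O) * ⟨f₂, h₂⟩ =
      ⟨algebraMap L F ((⟨c, hcA⟩ : A) : L), G.const_mem ⟨c, hcA⟩⟩ * ⟨f₁, h₁⟩ :=
    Subtype.ext hfy
  have hρmul := congrArg G.ρ hmul
  rw [map_mul, map_mul, G.ρ_const] at hρmul
  have hρser : ((G.ρ ⟨U, hUO⟩ : Fk) : LaurentSeries k) * coeffMap π Z₂ =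
      HahnSeries.single 0 (π ⟨c, hcA⟩) * coeffMap π Z₁ := by
    rw [← hρ₁, ← hρ₂, ← coe_algebraMap_eq_single_k (Fk := Fk)]
    exact congrArg (fun f : Fk => (f : LaurentSeries k)) hρmul
  have hfin : (((G.ρ ⟨U, hUO⟩ : Fk) : LaurentSeries k) * coeffMap π Y₂) * coeffMap π Z₂ =
      coeffMap π Y₁ * coeffMap π Z₂ := by
    rw [mul_right_comm, hρser, e']
    ring
  exact mul_right_cancel₀ hne₂ hfin

/-- every element of `O` is a fraction of integral series, compatibly with `ρ` -/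
theorem exists_frac (hlink : IsLinked G) (hVG : ValueGroupHyp A π F Fk) (t : F)
    (ht : t ∈ G.O) :
    ∃ Z₁ Z₂ : LaurentSeries A, coeffMap π Z₂ ≠ 0 ∧
      (t : LaurentSeries L) * coeffMap A.subtype Z₂ = coeffMap A.subtype Z₁ ∧
      ((G.ρ ⟨t, ht⟩ : Fk) : LaurentSeries k) * coeffMap π Z₂ = coeffMap π Z₁ := by
  rcases eq_or_ne t 0 with rfl | ht0
  · refine ⟨0, 1, ?_, ?_, ?_⟩
    · rw [map_one]; exact one_ne_zero
    · rw [map_zero, map_one]; simp
    · have h0 : G.ρ ⟨0, ht⟩ = 0 := map_zero G.ρ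
      rw [h0, map_zero, map_one]
      simp
  obtain ⟨c, Z₁, Z₂, f₁, f₂, h₁, h₂, hc0, hne₁, hne₂, hf₁, hf₂, hρ₁, hρ₂, hfy⟩ :=
    exists_vg hlink hVG t ht0
  have hρ₁0 : G.ρ ⟨f₁, h₁⟩ ≠ 0 := by
    intro h0
    apply hne₁
    rw [← hρ₁, h0]
    rfl
  have hf₁0 : f₁ ≠ 0 := (Red.H940.ctx G).ne_zero_of_ρ_ne_zero (u := ⟨f₁, h₁⟩) hρ₁0
  have hf₁inv : f₁⁻¹ ∈ G.O := (Red.H940.ctx G).inv_mem ⟨f₁, h₁⟩ hρ₁0
  have hcO : algebraMap L F c ∈ G.O := by
    have : algebraMap L F c = t * f₂ * f₁⁻¹ := by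
      rw [hfy, mul_assoc, mul_inv_cancel₀ hf₁0, mul_one]
    rw [this]
    exact mul_mem (mul_mem ht h₂) hf₁inv
  have hcA : c ∈ A := const_mem_of_mem c hcO
  have hser : (t : LaurentSeries L) * coeffMap A.subtype Z₂ =
      coeffMap A.subtype (HahnSeries.single 0 (⟨c, hcA⟩ : A) * Z₁) := by
    rw [map_mul, coeffMap_single, ← hf₁, ← hf₂]
    have := congrArg (fun f : F => (f : LaurentSeries L)) hfy
    rw [← coe_algebraMap_eq_single (F := F)]
    exact this
  refine ⟨HahnSeries.single 0 (⟨c, hcA⟩ : A) * Z₁, Z₂, hne₂, hser, ?_⟩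
  obtain ⟨hU, hρU⟩ := serFrac hlink hVG t (HahnSeries.single 0 (⟨c, hcA⟩ : A) * Z₁) Z₂ hne₂
    hser.symm
  exact hρU

section Core

variable [IsAlgClosed L] [IsAlgClosed k] (hlink : IsLinked G) (hVG : ValueGroupHyp A π F Fk)
  (r : Place L F → Place k Fk) (hii : IsRedII (Red.H940.ctx G) r)
  (t₀ : (Red.H940.ctx G).V) (ht₀ : Transcendental k ((Red.H940.ctx G).ρ t₀))
  [FiniteDimensional L⟮(t₀ : F)⟯ F] [FiniteDimensional k⟮(Red.H940.ctx G).ρ t₀⟯ Fk]
  (hLIFT : ∀ τ ∈ integralClosure (Algebra.adjoin k {(Red.H940.ctx G).ρ t₀}) Fk,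
    ∃ b : (Red.H940.ctx G).V, (Red.H940.ctx G).ρ b = τ ∧
      ∀ P : Place L F, 0 ≤ P.ord (t₀ : F) → 0 ≤ P.ord (b : F))

include hlink hVG hii ht₀ hLIFT

/-- **Reduction of holomorphic series, at a point `Q` of the chart of `t₀`.** -/
theorem holoOn_red_at (Q : Place k Fk) (hQ : 0 ≤ Q.ord ((Red.H940.ctx G).ρ t₀))
    (hreg : ∀ P, r P = Q → 0 ≤ P.ord (t₀ : F))
    (hθ : ∀ s : Fk, Q.ord s = 1 → thetaL (s : LaurentSeries k) ≠ 0)
    (Gs : LaurentSeries A) (hol : HoloOn F (coeffMap A.subtype Gs)) :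
    HoloAt Fk (coeffMap π Gs) Q := by
  intro s hs
  have hθs := hθ s hs
  have htK : Transcendental L (t₀ : F) := (Red.H940.ctx G).transcendental_of_ρ ht₀
  obtain ⟨t, hρt, ⟨P₀, hP₀⟩, htfib, hunif⟩ :=
    exists_lift_uniformizer (Red.H940.ctx G) r hii t₀ ht₀ hLIFT Q hQ hreg s hs
  -- holomorphy in characteristic `0` at every `P ↦ Q`, for the uniformiser `t - t(P)`
  have hU : ∀ P, r P = Q → ∃ u : F, u ∈ P.toValuationSubring ∧
      coeffMap A.subtype Gs = (u : LaurentSeries L) * thetaL ((t : F) : LaurentSeries L) := by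
    intro P hP
    obtain ⟨a, ha⟩ := hunif P hP
    obtain ⟨u, hu, he⟩ := hol P ((t : F) - algebraMap L F a) ha
    refine ⟨u, hu, ?_⟩
    rw [he]
    congr 1
    have : (((t : F) - algebraMap L F a : F) : LaurentSeries L) =
        ((t : F) : LaurentSeries L) - HahnSeries.single 0 a := by
      rw [← coe_algebraMap_eq_single (F := F)]
      rfl
    rw [this, thetaL_sub, thetaL_single_zero, sub_zero]
  by_cases hθt : thetaL ((t : F) : LaurentSeries L) = 0
  · obtain ⟨u, -, he⟩ := hU P₀ hP₀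
    rw [hθt, mul_zero] at he
    have hGs : Gs = 0 := by
      apply coeffMap_subtype_injective A
      rw [he, map_zero]
    refine ⟨0, zero_mem _, ?_⟩
    rw [hGs, map_zero]
    simp
  obtain ⟨U, hUP₀, hUe⟩ := hU P₀ hP₀
  have hUfib : ∀ P, r P = Q → 0 ≤ P.ord U := by
    intro P hP
    obtain ⟨u, hu, he⟩ := hU P hP
    have huU : u = U := by
      apply Subtype.ext
      exact mul_right_cancel₀ hθt (he.symm.trans hUe)
    rw [← huU]
    exact (Line.regular_iff_mem P u).mpr hu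
  -- `t` as a fraction of integral series
  obtain ⟨Z₁, Z₂, hZ₂, hZK, hZk⟩ := exists_frac hlink hVG (t : F) t.2
  have hρt' : G.ρ ⟨(t : F), t.2⟩ = s := hρt
  rw [hρt'] at hZk
  set W : LaurentSeries A := thetaL Z₁ * Z₂ - Z₁ * thetaL Z₂ with hW
  have hWK : thetaL ((t : F) : LaurentSeries L) * coeffMap A.subtype Z₂ ^ 2 =
      coeffMap A.subtype W := by
    rw [thetaL_quot hZK, hW, map_sub, map_mul, map_mul, coeffMap_thetaL, coeffMap_thetaL]
  have hWk : thetaL (s : LaurentSeries k) * coeffMap π Z₂ ^ 2 = coeffMap π W := by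
    rw [thetaL_quot hZk, hW, map_sub, map_mul, map_mul, coeffMap_thetaL, coeffMap_thetaL]
  have hWne : coeffMap π W ≠ 0 := by
    rw [← hWk]
    exact mul_ne_zero hθs (pow_ne_zero 2 hZ₂)
  have hY : coeffMap A.subtype (Gs * Z₂ ^ 2) = (U : LaurentSeries L) * coeffMap A.subtype W := by
    rw [map_mul, map_pow, hUe, ← hWK]
    ring
  obtain ⟨hUO, hρU⟩ := serFrac hlink hVG U (Gs * Z₂ ^ 2) W hWne hY
  have hfinal : coeffMap π Gs =
      ((G.ρ ⟨U, hUO⟩ : Fk) : LaurentSeries k) * thetaL (s : LaurentSeries k) := by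
    have h1 : (((G.ρ ⟨U, hUO⟩ : Fk) : LaurentSeries k) * thetaL (s : LaurentSeries k)) *
        coeffMap π Z₂ ^ 2 = coeffMap π Gs * coeffMap π Z₂ ^ 2 := by
      rw [mul_assoc, hWk, hρU, map_mul, map_pow]
    exact (mul_right_cancel₀ (pow_ne_zero 2 hZ₂) h1).symm
  refine ⟨G.ρ ⟨U, hUO⟩, ?_, hfinal⟩
  by_cases h0 : G.ρ ⟨U, hUO⟩ = 0
  · rw [h0]
    exact zero_mem _
  · exact (Line.regular_iff_mem Q _).mp
      (ord_red_ge (Red.H940.ctx G) r hii htK ⟨U, hUO⟩ h0 Q hUfib).1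

end Core

end Fermat.Agent.Ribet.H159
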