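import Mathlib
import Fermat.Prelude.Def_AlgebraicCurve_DivisorClassGroup
import Fermat.Agent.Ribet.H159.ThetaL

/-!
# The kernel of `θ` on a separably generated subfield of `k((q))` (helper159, RIBET / I3 INC-RED)

`k` perfect of characteristic `p`, `E ⊆ k((q))` a subfield containing `k`, `x ∈ E` with `θ x ≠ 0`
and `E / k(x)` separable algebraic.  Then

* `exists_pow_eq_of_thetaL_eq_zero` : `θ f = 0 ⟹ f ∈ E^p`  (for `f ∈ E`);
* `thetaL_ne_zero_of_ord_eq_one`    : a uniformiser `s` at a place of `E` has `θ s ≠ 0`.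

Proof: `E = E^p[x]` (separability), and `1, x, …, x^{p-1}` are linearly independent over
`ker θ ∩ E` (apply `θ` to a shortest relation).
-/

set_option autoImplicit false
set_option linter.style.haveILetI false
set_option linter.unusedVariables false

noncomputable section

namespace Fermat.Agent.Ribet.H159

open HahnSeries IntermediateField AlgebraicCurve

variable {k : Type*} [Field k]

section Lin

variable (E : IntermediateField k (LaurentSeries k)) (x : E)

theorem thetaL_natCast_mul (n : ℕ) (f : LaurentSeries k) :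
    thetaL ((n : LaurentSeries k) * f) = (n : LaurentSeries k) * thetaL f := by
  have h : thetaL ((n : LaurentSeries k)) = 0 := by
    have h1 : ((n : ℕ) : LaurentSeries k) = HahnSeries.C ((n : ℕ) : k) := by rw [map_natCast]
    rw [h1]
    exact thetaL_C _
  rw [thetaL_mul, h, zero_mul, zero_add]

theorem thetaL_sum {ι : Type*} (s : Finset ι) (f : ι → LaurentSeries k) :
    thetaL (∑ i ∈ s, f i) = ∑ i ∈ s, thetaL (f i) := by
  classical
  induction s using Finset.induction_on with
  | empty => simp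
  | insert a s ha ih => rw [Finset.sum_insert ha, Finset.sum_insert ha, thetaL_add, ih]

/-- `θ (Σ_{i ≤ m} a_i x^i) = θ x · Σ_{j < m} (j+1) a_{j+1} x^j` when `θ a_i = 0`. -/
theorem thetaL_polySum (a : ℕ → LaurentSeries k) (X : LaurentSeries k)
    (ha : ∀ i, thetaL (a i) = 0) (m : ℕ) :
    thetaL (∑ i ∈ Finset.range (m + 1), a i * X ^ i) =
      thetaL X * ∑ j ∈ Finset.range m, (((j + 1 : ℕ) : LaurentSeries k) * a (j + 1)) * X ^ j := by
  rw [thetaL_sum, Finset.sum_range_succ', Finset.mul_sum]
  have h0 : thetaL (a 0 * X ^ 0) = 0 := by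
    rw [pow_zero, mul_one, ha]
  rw [h0, add_zero]
  refine Finset.sum_congr rfl fun j _ => ?_
  rw [thetaL_mul, ha, zero_mul, zero_add, thetaL_pow]
  ring

/-- `1, x, …, x^{m-1}` (`m ≤ p`) are linearly independent over `ker θ`. -/
theorem coeff_eq_zero_of_polySum_eq_zero (p : ℕ) [hp : Fact p.Prime] [CharP k p]
    (X : LaurentSeries k) (hX : thetaL X ≠ 0) :
    ∀ (m : ℕ), m ≤ p → ∀ a : ℕ → LaurentSeries k, (∀ i, thetaL (a i) = 0) →
      ∑ i ∈ Finset.range m, a i * X ^ i = 0 → ∀ i < m, a i = 0 := by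
  intro m
  induction m with
  | zero => intro _ a _ _ i hi; exact absurd hi (Nat.not_lt_zero i)
  | succ m ih =>
    intro hm a ha hsum
    have h1 := thetaL_polySum a X ha m
    rw [hsum, thetaL_zero] at h1
    have h2 : ∑ j ∈ Finset.range m, (((j + 1 : ℕ) : LaurentSeries k) * a (j + 1)) * X ^ j = 0 := by
      rcases mul_eq_zero.mp h1.symm with h | h
      · exact absurd h hX
      · exact h
    have h3 := ih (Nat.le_of_succ_le hm) (fun j => ((j + 1 : ℕ) : LaurentSeries k) * a (j + 1))
      (fun j => by rw [thetaL_natCast_mul, ha, mul_zero]) h2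
    have hpos : ∀ j, j < m → a (j + 1) = 0 := by
      intro j hj
      have h4 := h3 j hj
      rcases mul_eq_zero.mp h4 with h | h
      · exfalso
        have h5 : ((j + 1 : ℕ) : LaurentSeries k) = HahnSeries.C ((j + 1 : ℕ) : k) := by
          rw [map_natCast]
        rw [h5, map_eq_zero_iff _ (HahnSeries.C_injective), CharP.cast_eq_zero_iff k p] at h
        have : p ≤ j + 1 := Nat.le_of_dvd (Nat.succ_pos j) h
        omega
      · exact h
    have h0 : a 0 = 0 := by
      rw [Finset.sum_range_succ'] at hsum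
      have hz : ∑ j ∈ Finset.range m, a (j + 1) * X ^ (j + 1) = 0 :=
        Finset.sum_eq_zero fun j hj => by rw [hpos j (Finset.mem_range.mp hj), zero_mul]
      rw [hz, zero_add, pow_zero, mul_one] at hsum
      exact hsum
    intro i hi
    rcases Nat.eq_zero_or_pos i with rfl | hpos'
    · exact h0
    · obtain ⟨j, rfl⟩ : ∃ j, i = j + 1 := ⟨i - 1, by omega⟩
      exact hpos j (by omega)

end Lin

section Rep

variable (p : ℕ) [hp : Fact p.Prime] [CharP k p]
variable {E : Type*} [Field E] [Algebra k E] (x : E)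

/-- the set `E^p[x]_{<p}` of polynomials in `x` of degree `< p` with coefficients in `E^p` -/
def IsRep (f : E) : Prop := ∃ c : ℕ → E, f = ∑ i ∈ Finset.range p, (c i) ^ p * x ^ i

variable {p x}

include hp in
theorem isRep_monomial [CharP E p] (e : E) (n : ℕ) : IsRep p x (e ^ p * x ^ n) := by
  classical
  have hppos : 0 < p := hp.out.pos
  refine ⟨fun i => if i = n % p then e * x ^ (n / p) else 0, ?_⟩
  rw [Finset.sum_eq_single (n % p)]
  · beta_reduce
    rw [if_pos rfl, mul_pow, ← pow_mul, mul_assoc, ← _root_.pow_add]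
    congr 2
    rw [mul_comm]
    exact (Nat.div_add_mod n p).symm
  · intro i _ hi
    beta_reduce
    rw [if_neg hi, zero_pow hp.out.ne_zero, zero_mul]
  · intro h
    exact absurd (Finset.mem_range.mpr (Nat.mod_lt n hppos)) h

theorem isRep_zero : IsRep p x (0 : E) := by
  refine ⟨fun _ => 0, ?_⟩
  rw [Finset.sum_eq_zero]
  intro i _
  rw [zero_pow hp.out.ne_zero, zero_mul]

include hp in
theorem IsRep.add [CharP E p] {f g : E} (hf : IsRep p x f) (hg : IsRep p x g) :
    IsRep p x (f + g) := by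
  obtain ⟨c, rfl⟩ := hf
  obtain ⟨d, rfl⟩ := hg
  refine ⟨fun i => c i + d i, ?_⟩
  rw [← Finset.sum_add_distrib]
  refine Finset.sum_congr rfl fun i _ => ?_
  beta_reduce
  rw [add_pow_char (c i) (d i) p, add_mul]

include hp in
theorem IsRep.neg [CharP E p] {f : E} (hf : IsRep p x f) : IsRep p x (-f) := by
  obtain ⟨c, rfl⟩ := hf
  have h1 : (-(∑ i ∈ Finset.range p, c i ^ p * x ^ i)) =
      ∑ i ∈ Finset.range p, ((-1 : E) * c i ^ p) * x ^ i := by
    rw [← Finset.sum_neg_distrib]
    refine Finset.sum_congr rfl fun i _ => by ring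
  by_cases h2 : p = 2
  · refine ⟨c, ?_⟩
    have : (-1 : E) = 1 := by
      haveI : CharP E 2 := h2 ▸ (inferInstance : CharP E p)
      exact CharTwo.neg_eq (1 : E)
    rw [h1]
    refine Finset.sum_congr rfl fun i _ => ?_
    rw [this, one_mul]
  · refine ⟨fun i => -c i, ?_⟩
    rw [h1]
    refine Finset.sum_congr rfl fun i _ => ?_
    have hodd : Odd p := hp.out.odd_of_ne_two h2
    rw [hodd.neg_pow]
    ring

include hp in
theorem isRep_sum [CharP E p] {ι : Type*} (s : Finset ι) (f : ι → E)
    (h : ∀ i ∈ s, IsRep p x (f i)) : IsRep p x (∑ i ∈ s, f i) := by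
  classical
  induction s using Finset.induction_on with
  | empty => rw [Finset.sum_empty]; exact isRep_zero
  | insert a s ha ih =>
    rw [Finset.sum_insert ha]
    exact (h a (Finset.mem_insert_self a s)).add
      (ih fun i hi => h i (Finset.mem_insert_of_mem hi))

include hp in
theorem IsRep.mul [CharP E p] {f g : E} (hf : IsRep p x f) (hg : IsRep p x g) :
    IsRep p x (f * g) := by
  obtain ⟨c, rfl⟩ := hf
  obtain ⟨d, rfl⟩ := hg
  rw [Finset.sum_mul_sum]
  refine isRep_sum _ _ fun i _ => isRep_sum _ _ fun j _ => ?_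
  have : c i ^ p * x ^ i * (d j ^ p * x ^ j) = (c i * d j) ^ p * x ^ (i + j) := by
    rw [mul_pow, _root_.pow_add]; ring
  rw [this]
  exact isRep_monomial _ _

include hp in
theorem isRep_pow_self [CharP E p] (e : E) : IsRep p x (e ^ p) := by
  have := isRep_monomial (p := p) (x := x) e 0
  rwa [pow_zero, mul_one] at this

include hp in
theorem isRep_one [CharP E p] : IsRep p x (1 : E) := by
  have := isRep_pow_self (p := p) (x := x) (1 : E)
  rwa [one_pow] at this

include hp in
theorem isRep_x [CharP E p] : IsRep p x x := by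
  have := isRep_monomial (p := p) (x := x) (1 : E) 1
  rwa [one_pow, one_mul, pow_one] at this

include hp in
theorem IsRep.pow [CharP E p] {f : E} (hf : IsRep p x f) (n : ℕ) : IsRep p x (f ^ n) := by
  induction n with
  | zero => rw [pow_zero]; exact isRep_one
  | succ n ih => rw [pow_succ]; exact ih.mul hf

include hp in
theorem IsRep.inv [CharP E p] {f : E} (hf : IsRep p x f) : IsRep p x f⁻¹ := by
  rcases eq_or_ne f 0 with rfl | h0
  · rw [inv_zero]; exact isRep_zero
  have h1 : f⁻¹ = (f⁻¹) ^ p * f ^ (p - 1) := by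
    have hp1 : p = (p - 1) + 1 := (Nat.succ_pred_eq_of_pos hp.out.pos).symm
    have : (f⁻¹) ^ p * f ^ (p - 1) = f⁻¹ * ((f⁻¹) ^ (p - 1) * f ^ (p - 1)) := by
      conv_lhs => rw [hp1, pow_succ']
      rw [Nat.add_sub_cancel]
      ring
    rw [this, ← mul_pow, inv_mul_cancel₀ h0, one_pow, mul_one]
  rw [h1]
  exact (isRep_pow_self _).mul (hf.pow _)

variable (p x)

/-- `E^p[x]` as a subfield of `E` -/
def repSubfield [CharP E p] : Subfield E where
  carrier := {f | IsRep p x f}
  mul_mem' := fun hf hg => hf.mul hg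
  one_mem' := isRep_one
  add_mem' := fun hf hg => hf.add hg
  zero_mem' := isRep_zero
  neg_mem' := fun hf => hf.neg
  inv_mem' := fun _ hf => hf.inv

/-- **`E = E^p[x]`** when `E / k(x)` is separable and `k` is perfect. -/
theorem isRep_of_isSeparable [CharP E p] (hperf : ∀ c : k, ∃ d : k, d ^ p = c)
    [Algebra.IsSeparable k⟮x⟯ E] (f : E) : IsRep p x f := by
  have hk : ∀ c : k, algebraMap k E c ∈ repSubfield p x := by
    intro c
    obtain ⟨d, rfl⟩ := hperf c
    rw [map_pow]
    exact isRep_pow_self _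
  let T' : IntermediateField k E := (repSubfield p x).toIntermediateField hk
  have hxT : k⟮x⟯ ≤ T' := by
    rw [IntermediateField.adjoin_simple_le_iff]
    exact isRep_x
  have hkx : ∀ y : k⟮x⟯, algebraMap k⟮x⟯ E y ∈ repSubfield p x := fun y => hxT y.2
  let T'' : IntermediateField k⟮x⟯ E := (repSubfield p x).toIntermediateField hkx
  haveI : CharP k⟮x⟯ p := charP_of_injective_algebraMap (algebraMap k k⟮x⟯).injective p
  haveI : ExpChar k⟮x⟯ p := ExpChar.prime hp.out
  have h1 := IntermediateField.adjoin_simple_eq_adjoin_pow_expChar_of_isSeparable' k⟮x⟯ E f p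
  have h2 : (k⟮x⟯)⟮f ^ p⟯ ≤ T'' := by
    rw [IntermediateField.adjoin_simple_le_iff]
    exact isRep_pow_self _
  have h3 : f ∈ (k⟮x⟯)⟮f⟯ := IntermediateField.mem_adjoin_simple_self _ f
  rw [h1] at h3
  exact h2 h3

end Rep

section Main

variable (p : ℕ) [hp : Fact p.Prime] [CharP k p]
variable (E : IntermediateField k (LaurentSeries k)) (x : E)

/-- **The kernel of `θ` on `E` is `E^p`.** -/
theorem exists_pow_eq_of_thetaL_eq_zero (hperf : ∀ c : k, ∃ d : k, d ^ p = c)
    (hx : thetaL (x : LaurentSeries k) ≠ 0) [Algebra.IsSeparable k⟮x⟯ E] (f : E)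
    (hf : thetaL (f : LaurentSeries k) = 0) : ∃ g : E, f = g ^ p := by
  haveI : CharP E p := charP_of_injective_algebraMap (algebraMap k E).injective p
  haveI : CharP (LaurentSeries k) p :=
    charP_of_injective_algebraMap (algebraMap k (LaurentSeries k)).injective p
  obtain ⟨c, hc⟩ := isRep_of_isSeparable p x hperf f
  obtain ⟨m, hm⟩ : ∃ m, p = m + 1 := ⟨p - 1, (Nat.succ_pred_eq_of_pos hp.out.pos).symm⟩
  -- coefficients as series
  let a : ℕ → LaurentSeries k := fun i => ((c i : E) : LaurentSeries k) ^ p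
  have ha : ∀ i, thetaL (a i) = 0 := fun i => thetaL_pow_char p _
  have hfa : (f : LaurentSeries k) =
      ∑ i ∈ Finset.range (m + 1), a i * (x : LaurentSeries k) ^ i := by
    rw [hc, ← hm]
    push_cast
    rfl
  have h1 := thetaL_polySum a (x : LaurentSeries k) ha m
  rw [← hfa, hf] at h1
  have h2 : ∑ j ∈ Finset.range m,
      (((j + 1 : ℕ) : LaurentSeries k) * a (j + 1)) * (x : LaurentSeries k) ^ j = 0 := by
    rcases mul_eq_zero.mp h1.symm with h | h
    · exact absurd h hx
    · exact h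
  have h3 := coeff_eq_zero_of_polySum_eq_zero p (x : LaurentSeries k) hx m (by omega)
    (fun j => ((j + 1 : ℕ) : LaurentSeries k) * a (j + 1))
    (fun j => by rw [thetaL_natCast_mul, ha, mul_zero]) h2
  have hpos : ∀ j, j < m → c (j + 1) = 0 := by
    intro j hj
    have h4 := h3 j hj
    rcases mul_eq_zero.mp h4 with h | h
    · exfalso
      have h5 : ((j + 1 : ℕ) : LaurentSeries k) = HahnSeries.C ((j + 1 : ℕ) : k) := by
        rw [map_natCast]
      rw [h5, map_eq_zero_iff _ (HahnSeries.C_injective), CharP.cast_eq_zero_iff k p] at h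
      have : p ≤ j + 1 := Nat.le_of_dvd (Nat.succ_pos j) h
      omega
    · have h6 : ((c (j + 1) : E) : LaurentSeries k) = 0 := pow_eq_zero_iff (hp.out.ne_zero) |>.mp h
      exact_mod_cast h6
  refine ⟨c 0, ?_⟩
  rw [hc, hm, Finset.sum_range_succ']
  have hz : ∑ j ∈ Finset.range m, c (j + 1) ^ (m + 1) * x ^ (j + 1) = 0 :=
    Finset.sum_eq_zero fun j hj => by
      rw [hpos j (Finset.mem_range.mp hj), zero_pow (Nat.succ_ne_zero m), zero_mul]
  rw [hz, zero_add, pow_zero, mul_one]

/-- **A uniformiser has `θ s ≠ 0`.** -/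
theorem thetaL_ne_zero_of_ord_eq_one (hperf : ∀ c : k, ∃ d : k, d ^ p = c)
    (hx : thetaL (x : LaurentSeries k) ≠ 0) [Algebra.IsSeparable k⟮x⟯ E]
    (Q : Place k E) (s : E) (hs : Q.ord s = 1) : thetaL (s : LaurentSeries k) ≠ 0 := by
  intro h0
  obtain ⟨g, hg⟩ := exists_pow_eq_of_thetaL_eq_zero p E x hperf hx s h0
  have h1 : Q.ord (g ^ p) = (p : ℤ) * Q.ord g := by
    have := Q.ord_zpow g (p : ℤ)
    rwa [zpow_natCast] at this
  rw [← hg, hs] at h1
  have h2 : (p : ℤ) ∣ 1 := ⟨Q.ord g, h1⟩
  have h3 : (p : ℤ) = 1 ∨ (p : ℤ) = -1 := Int.isUnit_iff.mp (isUnit_of_dvd_one h2)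
  have h4 := hp.out.two_le
  omega

end Main

end Fermat.Agent.Ribet.H159
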