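import Fermat.Agent.Ribet.H159.IncRedDatum
import Fermat.Agent.Ribet.H159.IncRedSeries
import Fermat.Agent.Ribet.H159.KerTheta
import Fermat.Agent.Ribet.H764.I3At
import Fermat.Agent.S18.H602.BaseChange

/-!
# I3 leaf INC-RED (helper159): reductions of holomorphic integral `q`-series are holomorphic

`k = ResidueField A`, `A` a valuation subring of `ℚ̄` over `p ∤ M`, `(M, p)` a good level
(`S37.Core.GoodLevel`: `p ≥ 5`, or `p = 3, 2 ∣ M`, or `p = 2, 3 ∣ M`).

* `isHoloSeries_red` : `G ∈ A⟦q⟧`, `G dq/q` holomorphic on `X₀(M)_ℚ̄`  ⟹  `Ḡ dq/q` holomorphic on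
  `X₀(M)_k`  (`I3.IsHoloSeries`);
* `incAt_residue`    : **`I3.IncAt M ℚ̄ → I3.IncAt M (ResidueField A)`**, i.e. INC at `k` from
  INC-AN (cusp forms with integral `q`-expansion are holomorphic differentials of `F_ℚ̄`).

Proof: the place reduction map `r` of row S37 (`Red.H940.exists_isRed` for the modular datum);
a uniformiser `s` at `Q` lifts to `t ∈ O` such that `t - t(P)` is a uniformiser at every `P ↦ Q`
(`exists_lift_uniformizer`); `U = G / θt` is regular on `r⁻¹(Q)`, lies in `O`, and
`ρ(U) = Ḡ / θs` is regular at `Q` by `r_*(div U) = div ρ(U)`; `θ s ≠ 0` because the kernel of `θ`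
on `F_k` is `F_k^p` (`KerTheta.lean`).
-/

set_option autoImplicit false
set_option synthInstance.maxHeartbeats 400000
set_option linter.unusedVariables false
set_option linter.unusedSectionVars false
set_option linter.style.haveILetI false

noncomputable section

namespace Fermat.Agent.Ribet.H159

open AlgebraicCurve IntermediateField HahnSeries ModularCurve IsLocalRing
open Fermat.Agent.S37 Fermat.Agent.S37.Red Fermat.Agent.S37.H940 Fermat.Agent.Ribet.H764

universe u

section Datum

variable {L : Type u} [Field L] {A : ValuationSubring L} {k : Type u} [Field k] {π : A →+* k}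
  {F : IntermediateField L (LaurentSeries L)} {Fk : IntermediateField k (LaurentSeries k)}
  (G : Red.Datum A π F Fk)

theorem self_mem_chart (t : F) : t ∈ G.chart t := by
  have ht : t ∈ G.polyRing t :=
    (le_sup_right : Subring.closure {t} ≤ G.polyRing t) (Subring.subset_closure rfl)
  show IsIntegral (G.polyRing t) t
  exact isIntegral_algebraMap (x := (⟨t, ht⟩ : G.polyRing t))

variable {G}

/-- **Reduction of holomorphic series**, for a linked reduction datum with good charts. -/
theorem holoOn_red [IsAlgClosed L] [CharZero L] [IsAlgClosed k] (hG : G.Good)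
    (hlink : IsLinked G) (hVG : ValueGroupHyp A π F Fk) (r : Place L F → Place k Fk)
    (hr : IsRed G r) (hec : EvalCompat G r)
    (hθ : ∀ (Q : Place k Fk) (s : Fk), Q.ord s = 1 → thetaL (s : LaurentSeries k) ≠ 0)
    (Gs : LaurentSeries A) (hol : HoloOn F (coeffMap A.subtype Gs)) :
    HoloOn Fk (coeffMap π Gs) := by
  intro Q
  have hii : IsRedII (Red.H940.ctx G) r := fun u hu D hD Q => hr.2 (u : F) u.2 hu D hD Q
  have i1 : FiniteDimensional L⟮((Red.H940.cx G : (Red.H940.ctx G).V) : F)⟯ F := hG.finite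
  have i2 : FiniteDimensional k⟮(Red.H940.ctx G).ρ (Red.H940.cx G)⟯ Fk := hG.finite_k
  have hxk0 : G.xk ≠ 0 := Red.H940.xk_ne_zero G
  by_cases hQ : 0 ≤ Q.ord G.xk
  · -- the finite chart
    have hreg : ∀ P, r P = Q → 0 ≤ P.ord ((Red.H940.cx G : (Red.H940.ctx G).V) : F) := by
      intro P hP
      by_contra hneg
      have hpos : 0 < P.ord G.x⁻¹ := by
        rw [P.ord_inv]
        have : ¬ 0 ≤ P.ord G.x := hneg
        omega
      have hval : ValAt P G.x⁻¹ ((0 : A) : L) := by
        rw [Red.H940.valAt_iff_inMax]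
        simpa using inMax_of_ord_pos hpos
      have h1 := hec.2 P 0 hval G.x⁻¹ (self_mem_chart G _) (Red.H940.xinv_mem G) 0 hval
      rw [Red.H940.valAt_iff_inMax, hP, map_zero, map_zero, sub_zero] at h1
      have h2 : G.ρ ⟨G.x⁻¹, Red.H940.xinv_mem G⟩ = G.xk⁻¹ := by
        rw [← H399.red_eq_of_mem G (Red.H940.xinv_mem G)]
        exact Red.H940.red_xinv G
      rw [h2] at h1
      have h3 := h1.ord_pos (inv_ne_zero hxk0)
      rw [Q.ord_inv] at h3
      omega
    have hLIFT : ∀ τ ∈ integralClosure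
        (Algebra.adjoin k {(Red.H940.ctx G).ρ (Red.H940.cx G)}) Fk,
        ∃ b : (Red.H940.ctx G).V, (Red.H940.ctx G).ρ b = τ ∧
          ∀ P : Place L F, 0 ≤ P.ord ((Red.H940.cx G : (Red.H940.ctx G).V) : F) →
            0 ≤ P.ord (b : F) := by
      intro τ hτ
      obtain ⟨b, hb, hbO, hρ⟩ := hG.lift_fin τ hτ
      exact ⟨⟨b, hbO⟩, hρ, fun P hP => Red.H940.regular_of_mem_chart G hb P hP⟩
    exact holoOn_red_at hlink hVG r hii (Red.H940.cx G) (Red.H940.transc_cx G) hLIFT Q hQ hreg
      (hθ Q) Gs hol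
  · -- the chart at infinity
    have hρ : (Red.H940.ctx G).ρ (xinv (Red.H940.ctx G) (Red.H940.cx G)
        (Red.H940.transc_cx G)) = G.xk⁻¹ :=
      ρ_xinv (Red.H940.ctx G) (Red.H940.cx G) (Red.H940.transc_cx G)
    have j1 : FiniteDimensional
        L⟮((xinv (Red.H940.ctx G) (Red.H940.cx G) (Red.H940.transc_cx G) :
          (Red.H940.ctx G).V) : F)⟯ F :=
      finiteDimensional_xinv (Red.H940.ctx G) (Red.H940.cx G) (Red.H940.transc_cx G)
    have j2 : FiniteDimensional k⟮(Red.H940.ctx G).ρ (xinv (Red.H940.ctx G) (Red.H940.cx G)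
        (Red.H940.transc_cx G))⟯ Fk :=
      finiteDimensional_ρ_xinv (Red.H940.ctx G) (Red.H940.cx G) (Red.H940.transc_cx G)
    have hQ' : 0 ≤ Q.ord ((Red.H940.ctx G).ρ (xinv (Red.H940.ctx G) (Red.H940.cx G)
        (Red.H940.transc_cx G))) := by
      rw [hρ, Q.ord_inv]
      omega
    have hreg : ∀ P, r P = Q →
        0 ≤ P.ord ((xinv (Red.H940.ctx G) (Red.H940.cx G) (Red.H940.transc_cx G) :
          (Red.H940.ctx G).V) : F) := by
      intro P hP
      show 0 ≤ P.ord G.x⁻¹
      by_contra hneg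
      have hpos : 0 < P.ord G.x := by
        rw [P.ord_inv] at hneg
        omega
      have hval : ValAt P G.x ((0 : A) : L) := by
        rw [Red.H940.valAt_iff_inMax]
        simpa using inMax_of_ord_pos hpos
      have h1 := hec.1 P 0 hval G.x (self_mem_chart G _) G.x_mem 0 hval
      rw [Red.H940.valAt_iff_inMax, hP, map_zero, map_zero, sub_zero] at h1
      have h2 : G.ρ ⟨G.x, G.x_mem⟩ = G.xk := rfl
      rw [h2] at h1
      exact hQ h1.ord_nonneg
    have hLIFT : ∀ τ ∈ integralClosure
        (Algebra.adjoin k {(Red.H940.ctx G).ρ (xinv (Red.H940.ctx G) (Red.H940.cx G)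
          (Red.H940.transc_cx G))}) Fk,
        ∃ b : (Red.H940.ctx G).V, (Red.H940.ctx G).ρ b = τ ∧
          ∀ P : Place L F,
            0 ≤ P.ord ((xinv (Red.H940.ctx G) (Red.H940.cx G) (Red.H940.transc_cx G) :
              (Red.H940.ctx G).V) : F) → 0 ≤ P.ord (b : F) := by
      intro τ hτ
      rw [hρ] at hτ
      obtain ⟨b, hb, hbO, hρb⟩ := hG.lift_inf τ hτ
      exact ⟨⟨b, hbO⟩, hρb, fun P hP => Red.H940.regular_of_mem_chart G hb P hP⟩
    exact holoOn_red_at hlink hVG r hii
      (xinv (Red.H940.ctx G) (Red.H940.cx G) (Red.H940.transc_cx G))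
      (transcendental_ρ_xinv (Red.H940.ctx G) (Red.H940.cx G) (Red.H940.transc_cx G))
      hLIFT Q hQ' hreg (hθ Q) Gs hol

end Datum

section Modular

/-- `I3.IsHoloSeries` in terms of `HoloOn` -/
theorem isHoloSeries_iff_holoOn (k : Type) [Field k] (M : ℕ) [NeZero M] (g : PowerSeries k) :
    I3.IsHoloSeries k M g ↔
      HoloOn (modularFunctionFieldFullC k M) (HahnSeries.ofPowerSeries ℤ k g) := by
  constructor
  · intro h P t ht
    obtain ⟨u, t', hθ, hu, he⟩ := h P t ht
    have ht' : t' = thetaL (t : LaurentSeries k) := by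
      ext n
      rw [hθ n]
      rfl
    exact ⟨u, hu, ht' ▸ he⟩
  · intro h Q t ht
    obtain ⟨u, hu, he⟩ := h Q t ht
    exact ⟨u, thetaL (t : LaurentSeries k), fun n => rfl, hu, he⟩

variable (M p : ℕ) [NeZero M] (hp : p.Prime) (hpM : ¬ p ∣ M) (hg : Core.GoodLevel M p)
  (A : ValuationSubring (AlgebraicClosure ℚ)) (hA : A.LiesOverPrime p)

include hp hpM hg hA

/-- **INC-RED.**  The reduction of a holomorphic integral `q`-series is holomorphic. -/
theorem isHoloSeries_red (Gs : PowerSeries A)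
    (hol : I3.IsHoloSeries (AlgebraicClosure ℚ) M (Gs.map A.subtype)) :
    I3.IsHoloSeries (ResidueField A) M (Gs.map (residue A)) := by
  haveI : IsAlgClosed (ResidueField A) := Fermat.Agent.S18.H9.resAlgClosed _ A
  haveI : Fact p.Prime := ⟨hp⟩
  haveI : CharP (ResidueField A) p := Fermat.Agent.S18.Mod.H216.charP_residue A hA
  obtain ⟨G, hG, hlink, hx1⟩ := exists_datum_sharp M p hp hpM hg A hA
  have hVG : ModVG M A :=
    H568.valueGroupHyp_modular (H98.coreData_residueField M p hp hpM A hA)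
  obtain ⟨r, hr, hec⟩ := Red.H940.exists_isRed G hG
  -- uniformisers have `θ ≠ 0`
  have hθx : thetaL ((G.xk : modularFunctionFieldFullC (ResidueField A) M) :
      LaurentSeries (ResidueField A)) ≠ 0 := by
    intro h0
    have h1 := congrArg (fun f : LaurentSeries (ResidueField A) => f.coeff (-1)) h0
    simp only [thetaL_coeff, hx1, HahnSeries.coeff_zero, mul_one] at h1
    have h2 : ((-1 : ℤ) : ResidueField A) = -1 := by push_cast; rfl
    rw [h2, neg_eq_zero] at h1
    exact one_ne_zero h1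
  have hperf : ∀ c : ResidueField A, ∃ d : ResidueField A, d ^ p = c :=
    fun c => IsAlgClosed.exists_pow_nat_eq c hp.pos
  haveI : Algebra.IsSeparable (IntermediateField.adjoin (ResidueField A) {G.xk})
      (modularFunctionFieldFullC (ResidueField A) M) := hG.sep_k
  have hθ : ∀ (Q : Place (ResidueField A) (modularFunctionFieldFullC (ResidueField A) M))
      (s : modularFunctionFieldFullC (ResidueField A) M), Q.ord s = 1 →
      thetaL (s : LaurentSeries (ResidueField A)) ≠ 0 :=
    fun Q s hs => thetaL_ne_zero_of_ord_eq_one p _ G.xk hperf hθx Q s hs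
  -- holomorphy over `ℚ̄`, on `modularFunctionFieldBar M`
  have hol' : HoloOn (modularFunctionFieldBar M)
      (coeffMap A.subtype (HahnSeries.ofPowerSeries ℤ A Gs)) := by
    rw [Fermat.Agent.S18.H602.modularFunctionFieldBar_eq, coeffMap_ofPowerSeries]
    exact (isHoloSeries_iff_holoOn _ M _).mp hol
  have key := holoOn_red hG hlink hVG r hr hec hθ (HahnSeries.ofPowerSeries ℤ A Gs) hol'
  rw [coeffMap_ofPowerSeries] at key
  exact (isHoloSeries_iff_holoOn _ M _).mpr key

/-- **INC at `k = ResidueField A` from INC-AN** (INC over `ℚ̄`). -/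
theorem incAt_residue (hAN : I3.IncAt M (AlgebraicClosure ℚ)) :
    I3.IncAt M (ResidueField A) := by
  intro g hgr
  obtain ⟨f, c, hfc, hgc⟩ := hgr
  let Gs : PowerSeries A := PowerSeries.mk fun n => ((c n : ℤ) : A)
  have h0 : I3.IsRedOfForm (AlgebraicClosure ℚ) M (Gs.map A.subtype) :=
    ⟨f, c, hfc, fun n => by simp [Gs]⟩
  have hg' : g = Gs.map (residue A) := by
    ext n
    rw [hgc]
    simp [Gs]
  rw [hg']
  exact isHoloSeries_red M p hp hpM hg A hA Gs (hAN _ h0)

end Modular

end Fermat.Agent.Ribet.H159
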