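import Fermat.Agent.Ribet.H159.IncRed
import Fermat.Agent.Ribet.H764.I3Res

/-!
# I3 leaf INC-RED, frozen form (helper159)

`incRed5 : I3.IncRed5Statement` (`Ribet/H764/I3Res.lean`, integrator helper764): for `p ≥ 5`,
`p ∤ M`, `A ⊆ ℚ̄` a valuation subring over `p`: the reduction mod `𝔪_A` of a holomorphic
`q`-series with integer coefficients is holomorphic.  Also `incRedGood` at all good levels
(`p = 3, 2 ∣ M` and `p = 2, 3 ∣ M` included).
-/

set_option autoImplicit false

namespace Fermat.Agent.Ribet.H159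

open Fermat.Agent.Ribet.H764 Fermat.Agent.S37

/-- **INC-RED at all good levels.** -/
theorem incRedGood (p M : ℕ) [NeZero M] (hp : p.Prime) (hpM : ¬ p ∣ M)
    (hg : Core.GoodLevel M p) (A : ValuationSubring (AlgebraicClosure ℚ))
    (hA : A.LiesOverPrime p) (c : ℕ → ℤ)
    (hol : I3.IsHoloSeries (AlgebraicClosure ℚ) M
      (PowerSeries.mk fun n => ((c n : ℤ) : AlgebraicClosure ℚ))) :
    I3.IsHoloSeries (I3.kRes A) M (PowerSeries.mk fun n => ((c n : ℤ) : I3.kRes A)) := by
  have h1 : (PowerSeries.mk fun n => ((c n : ℤ) : AlgebraicClosure ℚ)) =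
      (PowerSeries.mk fun n => ((c n : ℤ) : A)).map A.subtype := by
    ext n
    simp
  have h2 : (PowerSeries.mk fun n => ((c n : ℤ) : I3.kRes A)) =
      (PowerSeries.mk fun n => ((c n : ℤ) : A)).map (IsLocalRing.residue A) := by
    ext n
    simp
  rw [h1] at hol
  rw [h2]
  exact isHoloSeries_red M p hp hpM hg A hA _ hol

/-- **INC-RED** (`I3.IncRed5Statement`). -/
theorem incRed5 : I3.IncRed5Statement :=
  fun p M _ hp h5 hpM A hA c hol => incRedGood p M hp hpM (Or.inl h5) A hA c hol

end Fermat.Agent.Ribet.H159
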