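import Fermat.Agent.S37.Core.Inst
import Fermat.Agent.S37.Red.H940.MainStatement

/-!
# I3 / INC-RED (helper159): the modular reduction datum, with its coordinate `x̄ = q⁻¹ + …`

`Core.datumStatement` (row S37) with one more output: the reduced coordinate has
`q`-expansion `q⁻¹ + …` (so `θ x̄ ≠ 0`), and the place reduction map `r` of helper940.
-/

set_option autoImplicit false
set_option synthInstance.maxHeartbeats 400000

noncomputable section

namespace Fermat.Agent.Ribet.H159

open ModularCurve ValuationSubring AlgebraicCurve HahnSeries IsLocalRing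
open Fermat.Agent.S37 Fermat.Agent.S37.Red Fermat.Agent.S37.Core Fermat.Agent.S18

/-- **node_datum, sharp form**: the linked reduction datum with good charts at a good level,
whose reduced coordinate is `q⁻¹ + …`. -/
theorem exists_datum_sharp (M ℓ : ℕ) [NeZero M] (hℓ : ℓ.Prime) (hℓM : ¬ ℓ ∣ M)
    (hg : GoodLevel M ℓ) (A : ValuationSubring (AlgebraicClosure ℚ)) (hA : A.LiesOverPrime ℓ) :
    ∃ G : Red.Datum A (residue A) (modularFunctionFieldBar M)
        (modularFunctionFieldFullC (ResidueField A) M),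
      G.Good ∧ Red.H759.Link G ∧
        ((G.xk : modularFunctionFieldFullC (ResidueField A) M) :
          LaurentSeries (ResidueField A)).coeff (-1) = 1 := by
  haveI : Fact ℓ.Prime := ⟨hℓ⟩
  have h3 : ℓ = 3 → 2 ∣ M := fun h => by
    rcases hg with h5 | ⟨-, h⟩ | ⟨h2, -⟩
    · omega
    · exact h
    · omega
  have h2 : ℓ = 2 → 3 ∣ M := fun h => by
    rcases hg with h5 | ⟨h3, -⟩ | ⟨-, h⟩
    · omega
    · omega
    · exact h
  obtain ⟨x, S, hx⟩ := H333.node_coord M hℓM h3 h2
  obtain ⟨X, hX⟩ := exists_isModelOf M ℓ x S hx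
  obtain ⟨G, hGx, hGxk, hlink⟩ := datumLeaf M ℓ hℓ hℓM A hA x X hX
  obtain ⟨hf, hfk, hsep, hrk⟩ := h1Leaf M ℓ hℓ hℓM A hA x S hx X hX G hGx hGxk
  have hlev := fun E : H759.NumberFieldIn =>
    H697.liftLeaf M ℓ hℓ hℓM A hA x S hx X hX (modStatement M ℓ hℓ hℓM A hA)
      H278.leaf_normalAbs E
  obtain ⟨E₀⟩ : Nonempty H759.NumberFieldIn := inferInstance
  refine ⟨G, H217.good_of G hf hfk hsep hrk ?_ ?_, hlink, ?_⟩
  · refine H759.lift_fin_of_levels G hlink E₀ (fun E _ => ?_)
    rw [hGx, hGxk]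
    exact (hlev E).1
  · refine H759.lift_inf_of_levels G hlink E₀ (fun E _ => ?_)
    rw [hGx, hGxk]
    exact (hlev E).2
  · rw [hGxk, redX, coeffMap_coeff, hX.coeff_neg_one, map_one]

end Fermat.Agent.Ribet.H159
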