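import Fermat.Agent.Ribet.H764.I3Final
import Fermat.Agent.Ribet.H159.IncRed5
import Fermat.Agent.Ribet.H584.IncAnLocal
import Fermat.Agent.Ribet.H537.Dim5

/-!
# I3 = W-R3P at the residue fields, `p ≥ 5`: CLOSED (wiring, helper159)

`r3p5 : I3.R3P5Statement` from the landed leaves INC-AN (`H584.incAn`), INC-RED (`H159.incRed5`),
DIMK (`H537.dim5`), LOGHOL (`H751.logHol`), LIFT/DESC/RANK (helper764).
-/

set_option autoImplicit false

namespace Fermat.Agent.Ribet.H159

open Fermat.Agent.Ribet.H764

/-- INC-AN (helper584). -/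
theorem incAn_wired : I3.IncAnStatement := fun M _ g hg => Fermat.Agent.Ribet.H584.incAn M g hg

/-- INC at the residue fields. -/
theorem inc5_wired : I3.Inc5Statement := I3.inc5_of incAn_wired incRed5

/-- **I3 at the residue fields, `p ≥ 5`.** -/
theorem r3p5_wired : I3.R3P5Statement :=
  I3.r3p5_of_open incAn_wired incRed5 Fermat.Agent.Ribet.H537.dim5

end Fermat.Agent.Ribet.H159
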